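import Fermat.Agent.Flat.Main
import Fermat.Agent.TraceFn.JZero
import Mathlib.FieldTheory.IntermediateField.Adjoin.Basic

/-!
# Flatness of a Hecke Galois datum from finite flat models of the torsion of the Jacobian
-/

set_option autoImplicit false

noncomputable section

namespace Fermat.Agent.Flat

open Fermat.Agent.TraceFn Fermat.Agent.FFG ModularCurve

local notation "Qbar" => AlgebraicClosure ℚ
local notation "Γℚ" => AlgebraicClosure ℚ ≃ₐ[ℚ] AlgebraicClosure ℚ

/-- On a module with a finite flat model the Galois action factors through a number field. -/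
theorem exists_level_of_hasFlatModelAt {p : ℕ} {M : Type} [AddCommGroup M] {act : Γℚ → M → M}
    (h : HasFlatModelAt p act) :
    ∃ L : IntermediateField ℚ Qbar, FiniteDimensional ℚ L ∧
      ∀ σ : Γℚ, (∀ x ∈ L, σ x = x) → ∀ m, act σ m = m := by
  classical
  obtain ⟨B, hB⟩ := HasFlatModel.exists_isModel (K := ℚ) h
  have := hB.finite
  have : Finite M := HasFlatModel.finite (K := ℚ) h
  obtain ⟨r, b, hb⟩ := Module.Finite.exists_fin (R := GaloisRep.ratLocalizedAt p) (M := B)
  refine ⟨IntermediateField.adjoin ℚ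
    (Set.range fun z : Fin r × M => (b z.1 : M → Qbar) z.2), ?_, ?_⟩
  · exact IntermediateField.finiteDimensional_adjoin fun x _ => Algebra.IsIntegral.isIntegral x
  · intro σ hσ m
    refine hB.separates _ _ fun f hf => ?_
    have hmem : (⟨f, hf⟩ : B) ∈ Submodule.span (GaloisRep.ratLocalizedAt p) (Set.range b) := by
      rw [hb]; exact Submodule.mem_top
    have key : ∀ g : B, g ∈ Submodule.span (GaloisRep.ratLocalizedAt p) (Set.range b) →
        (g : M → Qbar) (act σ m) = (g : M → Qbar) m := by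
      intro g hg
      induction hg using Submodule.span_induction with
      | mem x hx =>
        obtain ⟨i, rfl⟩ := hx
        rw [hB.equivariant _ (b i).2]
        exact hσ _ (IntermediateField.subset_adjoin _ _ ⟨(i, m), rfl⟩)
      | zero => rfl
      | add x y _ _ hx hy =>
        simp only [Subalgebra.coe_add, Pi.add_apply, hx, hy]
      | smul c x _ hx =>
        simp only [Subalgebra.coe_smul, Pi.smul_apply, hx]
    exact key ⟨f, hf⟩ hmem

/-- `J₀(N)[p ^ n]` has a finite flat model at `p`, for every `n`. -/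
def JFlatTorsion (N : ℕ) [NeZero N] (p : ℕ) : Prop :=
  ∀ n, HasFlatModelAt p fun σ (x : torsLevel (JZero N) p n) => galTors (JZero N) p n σ x

/-- The finite flat models of `S19` in the shape used here. -/
theorem jFlatTorsion_of_models {N : ℕ} [NeZero N] {p : ℕ}
    (h : ∀ k : ℕ, ∃ (H : Type) (_ : CommRing H) (_ : HopfAlgebra (GaloisRep.ratLocalizedAt p) H),
      Module.Finite (GaloisRep.ratLocalizedAt p) H ∧ Module.Flat (GaloisRep.ratLocalizedAt p) H ∧
      Coalgebra.IsCocomm (GaloisRep.ratLocalizedAt p) H ∧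
      ∃ e : WithConv (H →ₐ[GaloisRep.ratLocalizedAt p] Qbar) ≃
          ↥(Submodule.torsionBy ℤ (JZero N) ((p : ℤ) ^ k)),
        (∀ f g, e (f * g) = e f + e g) ∧
        ∀ (σ : Γℚ) (f g : WithConv (H →ₐ[GaloisRep.ratLocalizedAt p] Qbar)),
          (∀ x : H, g x = σ (f x)) → ((e g : JZero N)) = σ • (e f : JZero N)) :
    JFlatTorsion N p := by
  intro n
  obtain ⟨H, i1, i2, h1, h2, h3, e, he, heq⟩ := h n
  have hiff : ∀ x : JZero N, x ∈ torsLevel (JZero N) p n ↔
      x ∈ Submodule.torsionBy ℤ (JZero N) ((p : ℤ) ^ n) := by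
    intro x
    rw [mem_torsLevel, Submodule.mem_torsionBy_iff, ← Nat.cast_pow, Nat.cast_smul_eq_nsmul ℤ]
  let t : ↥(Submodule.torsionBy ℤ (JZero N) ((p : ℤ) ^ n)) ≃ torsLevel (JZero N) p n :=
    { toFun := fun x => ⟨x.1, (hiff _).2 x.2⟩
      invFun := fun x => ⟨x.1, (hiff _).1 x.2⟩
      left_inv := fun _ => rfl
      right_inv := fun _ => rfl }
  exact ⟨H, i1, i2, h1, h2, h3, e.trans t,
    fun f g => Subtype.ext (congrArg Subtype.val (he f g)),
    fun σ f g hfg => Subtype.ext (heq σ f g hfg)⟩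

theorem jTorsFiniteLevel_of_flat {N : ℕ} [NeZero N] {p : ℕ} (hflat : JFlatTorsion N p) :
    JTorsFiniteLevel N p := by
  intro n
  obtain ⟨L, hL, h⟩ := exists_level_of_hasFlatModelAt (hflat n)
  exact ⟨L, hL, fun σ hσ => LinearMap.ext fun x => h σ hσ x⟩

variable {p : ℕ} {N : ℕ} [NeZero N] {S : Finset ℕ}
  {𝒪 : Type} [CommRing 𝒪] [IsDomain 𝒪] [IsDiscreteValuationRing 𝒪]
  [IsAdicComplete (IsLocalRing.maximalIdeal 𝒪) 𝒪]
  {θ : CuspForm.heckeAlgebra N 2 (↑S : Set ℕ) →+* IsLocalRing.ResidueField 𝒪}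
  {T : Type} [CommRing T] [IsLocalRing T] [IsNoetherianRing T]
  [IsAdicComplete (IsLocalRing.maximalIdeal T) T] [Algebra 𝒪 T] [IsLocalHom (algebraMap 𝒪 T)]
  [Module.Finite 𝒪 T] [Module.Free 𝒪 T]

/-- Flatness at `p` of a datum, from the three inputs on the Jacobian. -/
theorem isFlatAt_of_jzero [Finite (IsLocalRing.ResidueField 𝒪)] (hp : p.Prime)
    (hp𝒪 : (p : 𝒪) ∈ IsLocalRing.maximalIdeal 𝒪) (hpS : p ∈ S)
    {hNS : ∀ q : ℕ, q.Prime → q ∣ N → q ∈ S}
    (hflat : JFlatTorsion N p) (hfrob : JFrobeniusQuadratic N p)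
    (hfaith : JHeckeFaithful hNS p)
    (H : CuspForm.HeckeGaloisRepDatum N (↑S : Set ℕ) 𝒪 θ T) :
    H.ρ.IsFlatAt p := by
  have : Fact p.Prime := ⟨hp⟩
  have : Finite (IsLocalRing.ResidueField T) := by
    refine Finite.of_surjective (IsLocalRing.ResidueField.map (algebraMap 𝒪 T)) fun y => ?_
    obtain ⟨x, hx⟩ := H.residue_surjective y
    exact ⟨IsLocalRing.residue 𝒪 x, hx⟩
  exact isFlatAt_of_tower
    (jzeroTower N S p hpS hp hNS (jTorsFiniteLevel_of_flat hflat) hfrob) H.ρ (datumEval hNS H)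
    hpS (frobCompatible_datum H)
    (isSeparating_jzeroTower hp𝒪 hpS _ hfrob hfaith H) H.residual_absIrr hflat

end Fermat.Agent.Flat
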