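import Fermat.Agent.Flat.JZero
import Fermat.Agent.TraceFn.EichlerShimura
import Fermat.Agent.HK.TateFinal
import Fermat.Agent.HK.HeckeFinal

/-!
# S32 reduced to finite flat models of the torsion (S19) and specialisation data (S37)
-/

set_option autoImplicit false

open ModularCurve

namespace Fermat.Agent.Flat

theorem isFlatAt_of_inputs
    {p : ℕ} {N : ℕ} [NeZero N] {S : Finset ℕ}
    {𝒪 : Type} [CommRing 𝒪] [IsDomain 𝒪] [IsDiscreteValuationRing 𝒪]
    [IsAdicComplete (IsLocalRing.maximalIdeal 𝒪) 𝒪] [Finite (IsLocalRing.ResidueField 𝒪)]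
    {θ : CuspForm.heckeAlgebra N 2 (↑S : Set ℕ) →+* IsLocalRing.ResidueField 𝒪}
    {T : Type} [CommRing T] [IsLocalRing T] [IsNoetherianRing T]
    [IsAdicComplete (IsLocalRing.maximalIdeal T) T] [Algebra 𝒪 T] [IsLocalHom (algebraMap 𝒪 T)]
    [Module.Finite 𝒪 T] [Module.Free 𝒪 T]
    (hp : p.Prime) (hp𝒪 : (p : 𝒪) ∈ IsLocalRing.maximalIdeal 𝒪) (hpS : p ∈ S)
    (hNS : ∀ q : ℕ, q.Prime → q ∣ N → q ∈ S)
    (hflat : JFlatTorsion N p)
    (hspec : HeckeOperatorsCommuteBar N →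
      letI := heckeModuleBar N
      ∀ (_ : SMulCommClass (AlgebraicClosure ℚ ≃ₐ[ℚ] AlgebraicClosure ℚ) HeckeAlg (JZero N)),
        SpecializationExists (K := ℚ) (L := AlgebraicClosure ℚ) N p (JZero N))
    (H : CuspForm.HeckeGaloisRepDatum N (↑S : Set ℕ) 𝒪 θ T) :
    H.ρ.IsFlatAt p := by
  letI := heckeModuleBar N
  haveI := Fermat.Agent.HK.Corr.smulCommClass_heckeModuleBar N
  haveI : Fact p.Prime := ⟨hp⟩
  exact isFlatAt_of_jzero hp hp𝒪 hpS hflat
    (TraceFn.jFrobeniusQuadratic_of_frobeniusQuadratic N p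
      (TraceFn.frobeniusQuadratic_of_specializationExists
        (hspec (HK.Corr.heckeOperatorsCommuteBar N) inferInstance)))
    (HK.jHeckeFaithful N p hNS) H

end Fermat.Agent.Flat
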