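import Fermat.Agent.Flat.JZero
import Fermat.Agent.S19

/-!
# `J₀(N)[p ^ n]` has finite flat models at every `p ∤ N`
-/

set_option autoImplicit false

noncomputable section

namespace Fermat.Agent.Flat

/-- Good reduction: finite flat models of all `p`-power torsion levels. -/
theorem jFlatTorsion {N : ℕ} [NeZero N] {p : ℕ} [Fact p.Prime] (hpN : ¬ p ∣ N) :
    JFlatTorsion N p :=
  jFlatTorsion_of_models fun k => Fermat.Agent.S19.result N p hpN k

end Fermat.Agent.Flat
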