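import Mathlib.Algebra.Module.LinearMap.End
import Mathlib.Data.Fintype.EquivFin
import Mathlib.Data.Fintype.Prod
import Mathlib.Data.Finite.Prod
import Mathlib.LinearAlgebra.Finsupp.LinearCombination

/-!
# Finite quotients of a representation as subquotients of powers of a finite Galois module
-/

set_option autoImplicit false

namespace Fermat.Agent.Flat

variable {G : Type*} [Group G] {X V : Type*} [AddCommGroup X] [AddCommGroup V]

/-- The operator of a formal integral combination of group elements. -/
noncomputable def combo (α : G →* Module.End ℤ X) : (G →₀ ℤ) →ₗ[ℤ] Module.End ℤ X :=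
  Finsupp.linearCombination ℤ α

theorem combo_single (α : G →* Module.End ℤ X) (g : G) :
    combo α (Finsupp.single g 1) = α g := by
  simp [combo]

theorem combo_mapDomain_mul_left (α : G →* Module.End ℤ X) (g : G) (c : G →₀ ℤ) :
    combo α (c.mapDomain (g * ·)) = α g * combo α c := by
  induction c using Finsupp.induction_linear with
  | zero => simp
  | add a b ha hb => rw [Finsupp.mapDomain_add, map_add, map_add, ha, hb, mul_add]
  | single a b => simp [combo, Finsupp.mapDomain_single, (Int.cast_commute b (α g)).left_comm]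

theorem combo_mapDomain_mul_right (α : G →* Module.End ℤ X) (g : G) (c : G →₀ ℤ) :
    combo α (c.mapDomain (· * g)) = combo α c * α g := by
  induction c using Finsupp.induction_linear with
  | zero => simp
  | add a b ha hb => rw [Finsupp.mapDomain_add, map_add, map_add, ha, hb, add_mul]
  | single a b => simp [combo, Finsupp.mapDomain_single, mul_assoc]

/-- If every combination killing `X` also kills the finite equivariant quotient `Y` of `V`, then
`Y` is an equivariant quotient of a stable subgroup of a finite power of `X`. -/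
theorem exists_subquotient [Finite X] (α : G →* Module.End ℤ X) (β : G →* Module.End ℤ V)
    {Y : Type*} [AddCommGroup Y] [Finite Y] (actY : G → Y → Y) (q : V →+ Y)
    (hq : Function.Surjective q) (hqact : ∀ g v, q (β g v) = actY g (q v))
    (hker : ∀ c, combo α c = 0 → ∀ v, q (combo β c v) = 0) :
    ∃ (n : ℕ) (W : AddSubgroup (Fin n → X)) (hW : ∀ g, ∀ w ∈ W, (fun i => α g (w i)) ∈ W)
      (f : W →+ Y), Function.Surjective f ∧
        ∀ g (w : W), f ⟨fun i => α g ((w : Fin n → X) i), hW g w w.2⟩ = actY g (f w) := by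
  classical
  have : Fintype Y := Fintype.ofFinite Y
  choose s hs using hq
  obtain ⟨n, ⟨e'⟩⟩ := Finite.exists_equiv_fin (X × Y)
  obtain ⟨e, -⟩ : ∃ e : Fin n ≃ X × Y, e = e'.symm := ⟨_, rfl⟩
  let Ψ : (Y → G →₀ ℤ) →+ (Fin n → X) :=
    AddMonoidHom.mk' (fun x j => combo α (x (e j).2) (e j).1)
      fun x y => funext fun j => by
        rw [Pi.add_apply, Pi.add_apply, map_add, LinearMap.add_apply]
  let Φ : (Y → G →₀ ℤ) →+ Y :=
    AddMonoidHom.mk' (fun x => q (∑ y, combo β (x y) (s y)))
      fun x y => by simp only [Pi.add_apply, map_add, LinearMap.add_apply, Finset.sum_add_distrib]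
  have hle : ∀ x, Ψ x = 0 → Φ x = 0 := by
    intro x hx
    have hy : ∀ y, q (combo β (x y) (s y)) = 0 := fun y =>
      hker _ (LinearMap.ext fun v => by simpa [Ψ] using congrFun hx (e.symm (v, y))) _
    simp only [Φ, AddMonoidHom.mk'_apply, map_sum, hy, Finset.sum_const_zero]
  let sh : G → (Y → G →₀ ℤ) → (Y → G →₀ ℤ) := fun g x y => (x y).mapDomain (g * ·)
  have hΨ : ∀ g x, Ψ (sh g x) = fun j => α g (Ψ x j) := fun g x => funext fun j => by
    simp only [Ψ, sh, AddMonoidHom.mk'_apply, combo_mapDomain_mul_left, Module.End.mul_apply]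
  have hΦ : ∀ g x, Φ (sh g x) = actY g (Φ x) := fun g x => by
    simp only [Φ, sh, AddMonoidHom.mk'_apply, combo_mapDomain_mul_left, Module.End.mul_apply]
    rw [← hqact, map_sum (β g)]
  have hW : ∀ g, ∀ w ∈ Ψ.range, (fun j => α g (w j)) ∈ Ψ.range := by
    rintro g w ⟨x, rfl⟩
    exact ⟨sh g x, hΨ g x⟩
  have hsingle : ∀ y, Φ (Pi.single y (Finsupp.single 1 1)) = y := fun y => by
    simp only [Φ, AddMonoidHom.mk'_apply]
    rw [Finset.sum_eq_single y]
    · rw [Pi.single_eq_same, combo_single, map_one, Module.End.one_apply, hs]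
    · intro z _ hz
      rw [Pi.single_eq_of_ne hz, map_zero, LinearMap.zero_apply]
    · exact fun h => absurd (Finset.mem_univ y) h
  clear_value Φ
  clear_value Ψ
  clear_value sh
  choose pre hpre using fun w : Ψ.range => w.2
  have key : ∀ (w : Ψ.range) x, Ψ x = (w : Fin n → X) → Φ (pre w) = Φ x := fun w x hx => by
    rw [← sub_eq_zero, ← map_sub]
    exact hle _ (by rw [map_sub, hpre, hx, sub_self])
  let f : Ψ.range →+ Y := AddMonoidHom.mk' (fun w => Φ (pre w)) fun w w' => by
    rw [key (w + w') (pre w + pre w') (by rw [map_add, hpre, hpre]; rfl), map_add]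
  have hf : ∀ (w : Ψ.range) x, Ψ x = (w : Fin n → X) → f w = Φ x := key
  clear_value f
  refine ⟨n, Ψ.range, hW, f,
    fun y => ⟨⟨_, Pi.single y (Finsupp.single 1 1), rfl⟩, ?_⟩, fun g w => ?_⟩
  · rw [hf _ (Pi.single y (Finsupp.single 1 1)) rfl, hsingle]
  · rw [hf _ (sh g (pre w)) (by rw [hΨ, hpre]), hΦ, hf w (pre w) (hpre w)]

end Fermat.Agent.Flat
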