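import Fermat.Agent.TraceFn.Tower
import Fermat.Agent.Flat.Subquotient

/-!
# Combinations killing a deep level of a quadratic tower are small in the representation

No freeness of the tower over the Hecke ring is needed: if `x = ∑ c i • g i` kills a level then
`∑ c i • χ(g i) • (g i)⁻¹` is both scalar and, after translating by any `u`, still scalar, so it
annihilates all commutators; residual absolute irreducibility then makes the traces small.
-/

set_option autoImplicit false

namespace Fermat.Agent.Flat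

open Fermat.Agent.TraceFn Fermat.Agent.TraceFn.QuadraticTower

local notation "Qbar" => AlgebraicClosure ℚ
local notation "Γℚ" => AlgebraicClosure ℚ ≃ₐ[ℚ] AlgebraicClosure ℚ

section Algebra

/-- An element annihilating all commutator traces against a spanning family lies in the ideal. -/
theorem mem_of_forall_mul_trace_sub_mem {T : Type} [CommRing T] [IsLocalRing T]
    (ρ : GaloisRepAdic T) (h : ρ.residual.IsAbsolutelyIrreducible) (I : Ideal T) (t : T)
    (ht : ∀ a b c : Γℚ, t * (LinearMap.trace T ρ.V (ρ.ρ a * ρ.ρ b * ρ.ρ c) -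
      LinearMap.trace T ρ.V (ρ.ρ b * ρ.ρ a * ρ.ρ c)) ∈ I) : t ∈ I := by
  classical
  let b := Module.finBasisOfFinrankEq T ρ.V ρ.finrank_eq
  have hspan := span_range_toMatrix_eq_top ρ h b
  let N : Submodule T (Matrix (Fin 2) (Fin 2) T) :=
    { carrier := {M | ∀ i j, M i j ∈ I}
      add_mem' := fun hA hB i j => I.add_mem (hA i j) (hB i j)
      zero_mem' := fun _ _ => I.zero_mem
      smul_mem' := fun r _ hA i j => I.mul_mem_left r (hA i j) }
  let L : Matrix (Fin 2) (Fin 2) T → (Matrix (Fin 2) (Fin 2) T →ₗ[T] Matrix (Fin 2) (Fin 2) T) :=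
    fun B => t • (LinearMap.mulRight T B - LinearMap.mulLeft T B)
  have hL : ∀ A B, L B A = t • (A * B - B * A) := fun A B => rfl
  -- the generators
  have h1 : ∀ a c, L (LinearMap.toMatrix b b (ρ.ρ c)) (LinearMap.toMatrix b b (ρ.ρ a)) ∈ N := by
    intro a c i j
    let Z := L (LinearMap.toMatrix b b (ρ.ρ c)) (LinearMap.toMatrix b b (ρ.ρ a))
    let ψ : Matrix (Fin 2) (Fin 2) T →ₗ[T] T :=
      (Matrix.traceLinearMap (Fin 2) T T).comp (LinearMap.mulLeft T Z)
    have hψ : Submodule.span T (Set.range fun g => LinearMap.toMatrix b b (ρ.ρ g)) ≤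
        Submodule.comap ψ I := by
      rw [Submodule.span_le]
      rintro _ ⟨e, rfl⟩
      show (Z * LinearMap.toMatrix b b (ρ.ρ e)).trace ∈ I
      simp only [Z, hL, smul_mul_assoc, Matrix.trace_smul, sub_mul, Matrix.trace_sub,
        ← LinearMap.toMatrix_mul, ← LinearMap.trace_eq_matrix_trace, smul_eq_mul]
      exact ht a c e
    have := hψ (hspan.ge (Submodule.mem_top (x := Matrix.single j i (1 : T))))
    simpa [ψ, Z, Matrix.trace_mul_single] using this
  have h2 : ∀ A c, L (LinearMap.toMatrix b b (ρ.ρ c)) A ∈ N := fun A c =>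
    (show Submodule.span T (Set.range fun g => LinearMap.toMatrix b b (ρ.ρ g)) ≤
        Submodule.comap (L (LinearMap.toMatrix b b (ρ.ρ c))) N by
      rw [Submodule.span_le]; rintro _ ⟨a, rfl⟩; exact h1 a c) (hspan.ge Submodule.mem_top)
  have h3 : ∀ A B, L B A ∈ N := by
    intro A B
    have hle : Submodule.span T (Set.range fun g => LinearMap.toMatrix b b (ρ.ρ g)) ≤
        Submodule.comap (L A) N := by
      rw [Submodule.span_le]
      rintro _ ⟨c, rfl⟩
      have hneg : L A (LinearMap.toMatrix b b (ρ.ρ c)) =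
          -(L (LinearMap.toMatrix b b (ρ.ρ c)) A) := by
        rw [hL, hL, ← smul_neg, neg_sub]
      show L A _ ∈ N
      rw [hneg]
      exact N.neg_mem (h2 A c)
    have hneg : L B A = -(L A B) := by rw [hL, hL, ← smul_neg, neg_sub]
    rw [hneg]
    exact N.neg_mem (hle (hspan.ge Submodule.mem_top))
  have h0 : L (Matrix.single 1 0 (1 : T)) (Matrix.single 0 1 1) 0 0 ∈ I := h3 _ _ 0 0
  simpa [hL] using h0

end Algebra

section Tower

variable {p : ℕ} [Fact p.Prime] {S : Finset ℕ} {R : Type} [CommRing R] {a : ℕ → R}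
  (D : QuadraticTower p S R a)
  {T : Type} [CommRing T] [IsLocalRing T] (ρ : GaloisRepAdic T) (τ : R →+* T)

/-- `∑ c g • χ(g) • g⁻¹`. -/
noncomputable def adjugateCombo (n : ℕ) (c : Γℚ →₀ ℤ) : Module.End ℤ (D.X n) :=
  c.sum fun g r => r • (((cycExp p n g).val : Module.End ℤ (D.X n)) * D.gal n g⁻¹)

theorem combo_add_adjugateCombo (n : ℕ) (c : Γℚ →₀ ℤ) :
    c.sum (fun g r => r • D.trFun n g) = combo (D.gal n) c + adjugateCombo D n c := by
  simp only [combo, Finsupp.linearCombination_apply, adjugateCombo, ← Finsupp.sum_add, trFun,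
    smul_add]

theorem adjugateCombo_mapDomain_mul (n : ℕ) (c : Γℚ →₀ ℤ) (u : Γℚ) :
    adjugateCombo D n (c.mapDomain (· * u)) =
      ((cycExp p n u).val : Module.End ℤ (D.X n)) * D.gal n u⁻¹ * adjugateCombo D n c := by
  have : NeZero (p ^ n) := ⟨pow_ne_zero _ (Fact.out : p.Prime).ne_zero⟩
  rw [adjugateCombo, Finsupp.sum_mapDomain_index_inj (mul_left_injective u), adjugateCombo,
    Finsupp.mul_sum]
  refine Finsupp.sum_congr fun g _ => ?_
  have hcast : ((cycExp p n (g * u)).val : Module.End ℤ (D.X n)) =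
      (((cycExp p n g).val * (cycExp p n u).val : ℕ) : Module.End ℤ (D.X n)) :=
    D.natCast_eq_of_cast_eq n (by simp)
  rw [mul_smul_comm, hcast, Nat.cast_mul, mul_inv_rev, map_mul]
  congr 1
  simp only [mul_assoc]
  rw [← mul_assoc (D.gal n u⁻¹), ← (Nat.cast_commute _ (D.gal n u⁻¹)).eq, mul_assoc,
    ← mul_assoc, (Nat.cast_commute _ ((cycExp p n u).val : Module.End ℤ (D.X n))).eq, mul_assoc]

/-- The traces of the translates of a combination killing a deep level are small. -/
theorem sum_trace_mem_pow [IsNoetherianRing T] (hpS : p ∈ S)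
    (hρ : FrobCompatible (S := S) (a := a) ρ τ) (hsep : D.IsSeparating τ)
    (hirr : ρ.residual.IsAbsolutelyIrreducible) (k : ℕ) :
    ∃ n, ∀ c : Γℚ →₀ ℤ, combo (D.gal n) c = 0 →
      (c.sum fun g r => r • LinearMap.trace T ρ.V (ρ.ρ g)) ∈ IsLocalRing.maximalIdeal T ^ k := by
  obtain ⟨n, hn⟩ := hsep k
  refine ⟨n, fun c hc => ?_⟩
  choose r hr using fun g => D.exists_trace_approx ρ τ hpS hρ k n g
  set y := adjugateCombo D n c with hy
  have hyact : ∀ d : Γℚ →₀ ℤ, combo (D.gal n) d = 0 →
      D.act n (d.sum fun g z => z • r g) = adjugateCombo D n d := by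
    intro d hd
    rw [← zero_add (adjugateCombo D n d), ← hd, ← combo_add_adjugateCombo, map_finsuppSum]
    exact Finsupp.sum_congr fun g _ => by rw [map_zsmul, (hr g).1]
  have hycomm : ∀ u g : Γℚ, Commute
      (((cycExp p n u).val : Module.End ℤ (D.X n)) * D.gal n u⁻¹ * y) (D.gal n g) := by
    intro u g
    rw [hy, ← adjugateCombo_mapDomain_mul, ← hyact _ (by
      rw [combo_mapDomain_mul_right, hc, zero_mul])]
    exact D.commute n _ g
  -- cancel the cyclotomic unit
  have hcancel : ∀ u g : Γℚ,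
      D.gal n u⁻¹ * y * D.gal n g = D.gal n g * (D.gal n u⁻¹ * y) := by
    intro u g
    have hone : ((cycExp p n u⁻¹).val : Module.End ℤ (D.X n)) *
        ((cycExp p n u).val : Module.End ℤ (D.X n)) = 1 := by
      have : NeZero (p ^ n) := ⟨pow_ne_zero _ (Fact.out : p.Prime).ne_zero⟩
      rw [← Nat.cast_mul, ← Nat.cast_one]
      refine D.natCast_eq_of_cast_eq n ?_
      rw [Nat.cast_mul, ZMod.natCast_val, ZMod.natCast_val, ZMod.cast_id, ZMod.cast_id, ← map_mul,
        inv_mul_cancel, map_one, Nat.cast_one]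
    have h := (hycomm u g).eq
    have h2 := congrArg (((cycExp p n u⁻¹).val : Module.End ℤ (D.X n)) * ·) h
    simp only [← mul_assoc, hone, one_mul] at h2
    rw [h2]
    simp only [mul_assoc]
    rw [← mul_assoc (((cycExp p n u⁻¹).val : Module.End ℤ (D.X n))),
      (Nat.cast_commute _ (D.gal n g)).eq, mul_assoc,
      ← mul_assoc (((cycExp p n u⁻¹).val : Module.End ℤ (D.X n))), hone, one_mul]
  have hy1 : ∀ g, y * D.gal n g = D.gal n g * y := fun g => by
    simpa using hcancel 1 g
  have hcommutator : ∀ g h : Γℚ, y * D.gal n (g * h) = y * D.gal n (h * g) := by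
    intro g h
    have := hcancel g⁻¹ h
    rw [inv_inv, mul_assoc, hy1 h, ← mul_assoc, ← map_mul, ← mul_assoc, ← map_mul] at this
    rw [hy1, hy1, this]
  refine mem_of_forall_mul_trace_sub_mem ρ hirr _ _ fun g h e => ?_
  set t := c.sum fun g z => z • LinearMap.trace T ρ.V (ρ.ρ g) with ht
  set r₀ := c.sum fun g z => z • r g
  have hsmall : t - τ r₀ ∈ IsLocalRing.maximalIdeal T ^ k := by
    rw [ht, map_finsuppSum, ← Finsupp.sum_sub]
    refine Submodule.sum_mem _ fun i _ => ?_
    simp only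
    rw [map_zsmul, ← smul_sub]
    exact zsmul_mem (hr i).2 _
  have hprod : τ (r₀ * (r (g * h * e) - r (h * g * e))) ∈ IsLocalRing.maximalIdeal T ^ k := by
    refine hn _ ?_
    rw [map_mul, map_sub, hyact c hc, ← hy, (hr _).1, (hr _).1, trFun, trFun, mul_sub, sub_eq_zero,
      mul_add, mul_add]
    congr 1
    · rw [map_mul, map_mul (D.gal n) (h * g), ← mul_assoc, ← mul_assoc, hcommutator]
    · have hc2 : cycExp p n (g * h * e) = cycExp p n (h * g * e) := by
        simp only [map_mul]; rw [mul_comm (cycExp p n g)]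
      have hh : y * D.gal n (g * h * e)⁻¹ = y * D.gal n (h * g * e)⁻¹ := by
        have e1 : (g * h * e)⁻¹ = e⁻¹ * (h⁻¹ * g⁻¹) := by group
        have e2 : (h * g * e)⁻¹ = e⁻¹ * (g⁻¹ * h⁻¹) := by group
        rw [e1, e2, map_mul, map_mul (D.gal n) e⁻¹, ← mul_assoc, ← mul_assoc, hy1,
          mul_assoc, mul_assoc, hcommutator]
      rw [hc2, ← mul_assoc, ← mul_assoc, ← (Nat.cast_commute _ y).eq, mul_assoc, hh]
      simp only [mul_assoc]
  rw [← map_mul, ← map_mul, ← map_mul, ← map_mul]
  set m := IsLocalRing.maximalIdeal T ^ k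
  rw [map_mul, map_sub] at hprod
  rw [← Ideal.Quotient.eq_zero_iff_mem] at hprod ⊢
  have es : Ideal.Quotient.mk m t = Ideal.Quotient.mk m (τ r₀) := Ideal.Quotient.eq.mpr hsmall
  have eg : ∀ g, Ideal.Quotient.mk m (LinearMap.trace T ρ.V (ρ.ρ g)) =
      Ideal.Quotient.mk m (τ (r g)) := fun g => Ideal.Quotient.eq.mpr (hr g).2
  rw [map_mul, map_sub] at hprod ⊢
  rw [es, eg, eg, hprod]

/-- Combinations killing a deep level map into `m ^ k • End`. -/
theorem exists_level_kills [IsNoetherianRing T] (hpS : p ∈ S)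
    (hρ : FrobCompatible (S := S) (a := a) ρ τ) (hsep : D.IsSeparating τ)
    (hirr : ρ.residual.IsAbsolutelyIrreducible) (k : ℕ) :
    ∃ n, ∀ c : Γℚ →₀ ℤ, combo (D.gal n) c = 0 → ∀ v : ρ.V,
      (c.sum fun g r => r • ρ.ρ g v) ∈
        (IsLocalRing.maximalIdeal T ^ k) • (⊤ : Submodule T ρ.V) := by
  classical
  obtain ⟨n, hn⟩ := sum_trace_mem_pow D ρ τ hpS hρ hsep hirr k
  refine ⟨n, fun c hc v => ?_⟩
  set f : Module.End T ρ.V := c.sum fun g r => r • ρ.ρ g with hf
  have hfv : (c.sum fun g r => r • ρ.ρ g v) = f v := by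
    rw [hf, Finsupp.sum, Finsupp.sum, LinearMap.sum_apply]
    rfl
  have htr : ∀ u, LinearMap.trace T ρ.V (f * ρ.ρ u) ∈ IsLocalRing.maximalIdeal T ^ k := by
    intro u
    have h := hn (c.mapDomain (· * u)) (by rw [combo_mapDomain_mul_right, hc, zero_mul])
    rw [Finsupp.sum_mapDomain_index_inj (mul_left_injective u)] at h
    rw [hf, Finsupp.sum_mul, map_finsuppSum]
    simpa only [smul_mul_assoc, map_zsmul, ← map_mul] using h
  let b := Module.finBasisOfFinrankEq T ρ.V ρ.finrank_eq
  let ψ : Matrix (Fin 2) (Fin 2) T →ₗ[T] T ⧸ (IsLocalRing.maximalIdeal T ^ k) :=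
    (Submodule.mkQ _).comp ((Matrix.traceLinearMap (Fin 2) T T).comp
      (LinearMap.mulLeft T (LinearMap.toMatrix b b f)))
  have hψ : ψ = 0 := by
    refine LinearMap.ext_on (span_range_toMatrix_eq_top ρ hirr b) ?_
    rintro _ ⟨u, rfl⟩
    simp only [ψ, LinearMap.comp_apply, LinearMap.mulLeft_apply, Matrix.traceLinearMap_apply,
      LinearMap.zero_apply, Submodule.mkQ_apply, Submodule.Quotient.mk_eq_zero,
      ← LinearMap.toMatrix_mul, ← LinearMap.trace_eq_matrix_trace]
    exact htr u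
  have hent : ∀ i j, LinearMap.toMatrix b b f i j ∈ IsLocalRing.maximalIdeal T ^ k := by
    intro i j
    have h := LinearMap.congr_fun hψ (Matrix.single j i (1 : T))
    simp only [ψ, LinearMap.comp_apply, LinearMap.mulLeft_apply, Matrix.traceLinearMap_apply,
      LinearMap.zero_apply, Submodule.mkQ_apply, Submodule.Quotient.mk_eq_zero,
      Matrix.trace_mul_single] at h
    simpa using h
  rw [hfv, ← b.sum_repr v, map_sum]
  refine Submodule.sum_mem _ fun j _ => ?_
  rw [map_smul]
  refine Submodule.smul_mem _ _ ?_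
  rw [← b.sum_repr (f (b j))]
  refine Submodule.sum_mem _ fun i _ => Submodule.smul_mem_smul ?_ Submodule.mem_top
  rw [← LinearMap.toMatrix_apply]
  exact hent i j

end Tower

end Fermat.Agent.Flat
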