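import Fermat.Agent.Flat.Kernel
import Fermat.Agent.FFG.RatLocal
import Mathlib.RingTheory.Artinian.Ring

/-!
# Flatness of a representation cut out by a tower with finite flat levels
-/

set_option autoImplicit false

namespace Fermat.Agent.Flat

open Fermat.Agent.TraceFn Fermat.Agent.TraceFn.QuadraticTower Fermat.Agent.FFG

local notation "Qbar" => AlgebraicClosure ℚ
local notation "Γℚ" => AlgebraicClosure ℚ ≃ₐ[ℚ] AlgebraicClosure ℚ

variable {A : Type} [CommRing A] [IsLocalRing A]

/-- An ideal with finite quotient contains a power of the maximal ideal. -/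
theorem exists_pow_maximalIdeal_le (I : Ideal A) [Finite (A ⧸ I)] :
    ∃ k : ℕ, IsLocalRing.maximalIdeal A ^ k ≤ I := by
  rcases eq_or_ne I ⊤ with h | h
  · exact ⟨0, h ▸ le_top⟩
  have : Nontrivial (A ⧸ I) := Ideal.Quotient.nontrivial_iff.mpr h
  have : IsLocalRing (A ⧸ I) := .of_surjective' (Ideal.Quotient.mk I) Ideal.Quotient.mk_surjective
  obtain ⟨k, hk⟩ := IsArtinianRing.isNilpotent_jacobson_bot (R := A ⧸ I)
  refine ⟨k, fun x hx => Ideal.Quotient.eq_zero_iff_mem.mp ?_⟩
  have hle : (IsLocalRing.maximalIdeal A).map (Ideal.Quotient.mk I) ≤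
      Ideal.jacobson (⊥ : Ideal (A ⧸ I)) := by
    refine le_trans ?_ (IsLocalRing.maximalIdeal_le_jacobson _)
    exact ((IsLocalRing.local_hom_TFAE (Ideal.Quotient.mk I)).out 0 2).mp
      (IsLocalHom.of_surjective (Ideal.Quotient.mk I) Ideal.Quotient.mk_surjective)
  have h1 : Ideal.Quotient.mk I x ∈ Ideal.jacobson (⊥ : Ideal (A ⧸ I)) ^ k := by
    have := Ideal.pow_right_mono hle k
    rw [← Ideal.map_pow] at this
    exact this (Ideal.mem_map_of_mem _ hx)
  rwa [hk, Ideal.zero_eq_bot, Ideal.mem_bot] at h1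

/-- A representation compatible with a quadratic tower all whose levels have finite flat models
is flat. -/
theorem isFlatAt_of_tower {p : ℕ} [Fact p.Prime] {S : Finset ℕ} {R : Type} [CommRing R]
    {a : ℕ → R} (D : QuadraticTower p S R a) [IsNoetherianRing A]
    [Finite (IsLocalRing.ResidueField A)] (ρ : GaloisRepAdic A) (τ : R →+* A) (hpS : p ∈ S)
    (hρ : FrobCompatible (S := S) (a := a) ρ τ) (hsep : D.IsSeparating τ)
    (hirr : ρ.residual.IsAbsolutelyIrreducible)
    (hflat : ∀ n, HasFlatModelAt p fun σ (x : D.X n) => D.gal n σ x) : ρ.IsFlatAt p := by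
  refine ⟨inferInstance, fun I hI => ?_⟩
  let Y := ρ.V ⧸ (I • (⊤ : Submodule A ρ.V))
  have : Finite Y := by
    have : Module.Finite (A ⧸ I) Y := Module.Finite.of_restrictScalars_finite A (A ⧸ I) Y
    exact Module.finite_of_finite (A ⧸ I)
  obtain ⟨k, hk⟩ := exists_pow_maximalIdeal_le I
  obtain ⟨n, hn⟩ := exists_level_kills D ρ τ hpS hρ hsep hirr k
  have : Finite (D.X n) := HasFlatModel.finite (K := ℚ) (hflat n)
  let β : Γℚ →* Module.End ℤ ρ.V :=
    { toFun := fun g => (ρ.ρ g).toAddMonoidHom.toIntLinearMap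
      map_one' := by ext; simp
      map_mul' := fun g h => by ext; simp }
  obtain ⟨m, W, hW, f, hf, hfact⟩ := exists_subquotient (D.gal n) β
    (fun g (y : Y) => ρ.levelAction I g y) (Submodule.mkQ _).toAddMonoidHom
    (Submodule.mkQ_surjective _) (fun g v => rfl) (fun c hc v => by
      show Submodule.mkQ (I • (⊤ : Submodule A ρ.V)) (combo β c v) = 0
      rw [Submodule.mkQ_apply, Submodule.Quotient.mk_eq_zero]
      refine Submodule.smul_mono hk le_rfl ?_
      have h := hn c hc v
      convert h using 1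
      simp only [combo, Finsupp.linearCombination_apply, Finsupp.sum, LinearMap.sum_apply]
      rfl)
  exact ((hflat n).finPow m).subquotient W hW f hf hfact

end Fermat.Agent.Flat
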